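import Fermat.Agent.DeligneSerre.Hecke.Reps

/-!
# Hecke and diamond operators on homomorphisms of `Γ₁(N)`

* `parHom1 𝕜 N A` : homomorphisms killing the elements of squared trace `4`.
* `heckeHom1 𝕜 N p` : transfer through the representatives of `Hecke/Reps` (`0` unless `p` is a
  prime not dividing `N`).
* `diamond1 𝕜 N d` : `χ ↦ χ (g · g⁻¹)` for `g ∈ Γ₀(N)` of lower right entry `d`.
-/

set_option autoImplicit false

noncomputable section

open CongruenceSubgroup Matrix.SpecialLinearGroup UpperHalfPlane ModularCurve.Period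
open scoped MatrixGroups OnePoint

namespace FLTA.DeligneSerre

open FLTA.Periods
open P2MW.S_ModularForm_heckeT_slash_eq_self_of_mem_Gamma0.ModularForm.HeckeSlashInvariance
  (heckeRep redMatrix)

variable {N : ℕ}

/-- `Γ₁(N)` inside `GL₂(ℝ)`. -/
abbrev gamma1GL (N : ℕ) : Gamma1 N →* GL (Fin 2) ℝ := (gamma0GL N).comp (gamma1Incl N)

theorem gamma1Incl_injective : Function.Injective (gamma1Incl N) :=
  Subgroup.inclusion_injective _

theorem gamma1GL_injective : Function.Injective (gamma1GL N) :=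
  gamma0GL_injective.comp gamma1Incl_injective

/-- An element of `Γ₀(N)` with lower right entry `1` as an element of `Γ₁(N)`. -/
def toGamma1 (g : Gamma0 N) (h : lowerRight N g = 1) : Gamma1 N :=
  ⟨g, mem_gamma1_iff.2 ⟨g.2, h⟩⟩

@[simp] theorem incl_toGamma1 (g : Gamma0 N) (h : lowerRight N g = 1) :
    gamma1Incl N (toGamma1 g h) = g := rfl

/-- Conjugation by an element of `Γ₀(N)`. -/
def conj1 (g : Gamma0 N) : Gamma1 N ≃* Gamma1 N where
  toFun γ := toGamma1 (g * gamma1Incl N γ * g⁻¹) (by simp [lowerRight_incl])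
  invFun γ := toGamma1 (g⁻¹ * gamma1Incl N γ * g) (by simp [lowerRight_incl])
  left_inv γ := gamma1Incl_injective (by simp [mul_assoc])
  right_inv γ := gamma1Incl_injective (by simp [mul_assoc])
  map_mul' γ δ := gamma1Incl_injective (by simp [mul_assoc])

@[simp] theorem incl_conj1 (g : Gamma0 N) (γ : Gamma1 N) :
    gamma1Incl N (conj1 g γ) = g * gamma1Incl N γ * g⁻¹ := rfl

variable {A : Type*} [AddCommGroup A]

theorem map_conj1_congr {g h : Gamma0 N} (hgh : lowerRight N g = lowerRight N h)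
    (φ : Additive (Gamma1 N) →+ A) (γ : Gamma1 N) :
    φ (Additive.ofMul (conj1 g γ)) = φ (Additive.ofMul (conj1 h γ)) := by
  have hd : lowerRight N (g * h⁻¹) = 1 := by simp [hgh]
  have e : conj1 g γ = toGamma1 _ hd * conj1 h γ * (toGamma1 _ hd)⁻¹ :=
    gamma1Incl_injective (by simp [mul_assoc])
  rw [e, ofMul_mul, ofMul_mul, map_add, map_add, ofMul_inv, map_neg]
  abel

section representatives

variable {p : ℕ} [hp : Fact p.Prime] [NeZero N] (hpN : ¬ p ∣ N)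

theorem heckeRep1_unique (x y : OnePoint (ZMod p)) (δ : Gamma0 N)
    (h : gamma0GL N δ * heckeRep1 hpN x = heckeRep1 hpN y) : x = y := by
  refine (repsT hpN).unique x y ((repFactor hpN y)⁻¹ * δ * repFactor hpN x) ?_
  show _ * heckeRep p x = heckeRep p y
  rw [heckeRep1, heckeRep1] at h
  rw [map_mul, map_mul, map_inv, mul_assoc, mul_assoc, h, inv_mul_cancel_left]

/-- The representatives for `T_p` on `Γ₁(N)`. -/
def repsT1 : HeckeReps (gamma1GL N) (OnePoint (ZMod p)) :=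
  HeckeReps.ofExists (heckeRep1 hpN) gamma1GL_injective
    (fun x y δ h => heckeRep1_unique hpN x y (gamma1Incl N δ) h)
    (fun γ x => by
      obtain ⟨δ, hδ, hmul⟩ := heckeRep1_mul hpN (gamma1Incl N γ) x
      exact ⟨_, toGamma1 δ (hδ.trans (lowerRight_incl γ)), hmul⟩)

@[simp] theorem repsT1_rep : (repsT1 hpN).rep = heckeRep1 hpN := rfl

end representatives

section ops

variable (𝕜 : Type*) [Semiring 𝕜] [Module 𝕜 A] (N)

open Classical in
/-- The Hecke operator at a prime not dividing `N`. -/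
def heckeHom1 [NeZero N] (p : ℕ) :
    (Additive (Gamma1 N) →+ A) →ₗ[𝕜] (Additive (Gamma1 N) →+ A) :=
  if h : p.Prime ∧ ¬ p ∣ N then
    haveI := Fact.mk h.1
    haveI : NeZero p := ⟨h.1.ne_zero⟩
    (repsT1 h.2).transfer 𝕜
  else 0

variable {N}

theorem heckeHom1_eq [NeZero N] {p : ℕ} [hp : Fact p.Prime] [NeZero p] (hpN : ¬ p ∣ N) :
    (heckeHom1 N 𝕜 p : (Additive (Gamma1 N) →+ A) →ₗ[𝕜] _) = (repsT1 hpN).transfer 𝕜 :=
  dif_pos ⟨hp.out, hpN⟩

theorem heckeHom1_of_not [NeZero N] {p : ℕ} (h : ¬ (p.Prime ∧ ¬ p ∣ N)) :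
    (heckeHom1 N 𝕜 p : (Additive (Gamma1 N) →+ A) →ₗ[𝕜] _) = 0 := dif_neg h

theorem heckeHom1_comp [NeZero N] {B : Type*} [AddCommGroup B] [Module 𝕜 B] (p : ℕ) (f : A →+ B)
    (φ : Additive (Gamma1 N) →+ A) : heckeHom1 N 𝕜 p (f.comp φ) = f.comp (heckeHom1 N 𝕜 p φ) := by
  by_cases h : p.Prime ∧ ¬ p ∣ N
  · haveI := Fact.mk h.1
    haveI : NeZero p := ⟨h.1.ne_zero⟩
    simp only [heckeHom1_eq 𝕜 h.2]
    exact (repsT1 h.2).transferHom_comp f φ
  · simp [heckeHom1_of_not 𝕜 h]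

theorem heckeHom1_eq_int [NeZero N] (p : ℕ) (φ : Additive (Gamma1 N) →+ A) :
    heckeHom1 N 𝕜 p φ = heckeHom1 N ℤ p φ := by
  unfold heckeHom1
  split_ifs <;> rfl

/-- Composition with conjugation. -/
def conjHom1 (g : Gamma0 N) : (Additive (Gamma1 N) →+ A) →ₗ[𝕜] (Additive (Gamma1 N) →+ A) where
  toFun φ := φ.comp (MonoidHom.toAdditive (conj1 g).toMonoidHom)
  map_add' _ _ := rfl
  map_smul' _ _ := rfl

theorem conjHom1_apply (g : Gamma0 N) (φ : Additive (Gamma1 N) →+ A) (γ : Gamma1 N) :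
    conjHom1 𝕜 g φ (Additive.ofMul γ) = φ (Additive.ofMul (conj1 g γ)) := rfl

theorem conjHom1_congr {g h : Gamma0 N} (hgh : lowerRight N g = lowerRight N h) :
    (conjHom1 𝕜 g : (Additive (Gamma1 N) →+ A) →ₗ[𝕜] _) = conjHom1 𝕜 h :=
  LinearMap.ext fun φ => AddMonoidHom.ext fun γ => map_conj1_congr hgh φ (Additive.toMul γ)

variable [NeZero N]

variable (N) in
/-- The diamond operators. -/
def diamond1 : (ZMod N)ˣ →* Module.End 𝕜 (Additive (Gamma1 N) →+ A) where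
  toFun u := conjHom1 𝕜 (diamondRep u)
  map_one' := by
    rw [conjHom1_congr 𝕜 (h := (1 : Gamma0 N)) (by simp)]
    refine LinearMap.ext fun φ => AddMonoidHom.ext fun γ => ?_
    show φ (Additive.ofMul (conj1 1 (Additive.toMul γ))) = φ γ
    exact congrArg (fun x => φ (Additive.ofMul x))
      (gamma1Incl_injective (by simp) : conj1 1 (Additive.toMul γ) = Additive.toMul γ)
  map_mul' u v := by
    rw [conjHom1_congr 𝕜 (h := diamondRep v * diamondRep u) (by simp [mul_comm])]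
    refine LinearMap.ext fun φ => AddMonoidHom.ext fun γ => ?_
    show φ (Additive.ofMul (conj1 _ (Additive.toMul γ))) =
      φ (Additive.ofMul (conj1 (diamondRep v) (conj1 (diamondRep u) (Additive.toMul γ))))
    exact congrArg (fun x => φ (Additive.ofMul x)) (gamma1Incl_injective (by simp [mul_assoc]))

theorem diamond1_eq (g : Gamma0 N) :
    (diamond1 N 𝕜 (lowerRight N g) : Module.End 𝕜 (Additive (Gamma1 N) →+ A)) = conjHom1 𝕜 g :=
  conjHom1_congr 𝕜 (by simp)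

theorem diamond1_apply (g : Gamma0 N) (φ : Additive (Gamma1 N) →+ A) (γ : Gamma1 N) :
    diamond1 N 𝕜 (lowerRight N g) φ (Additive.ofMul γ) = φ (Additive.ofMul (conj1 g γ)) := by
  rw [diamond1_eq]; rfl

theorem diamond1_comp {B : Type*} [AddCommGroup B] [Module 𝕜 B] (u : (ZMod N)ˣ) (f : A →+ B)
    (φ : Additive (Gamma1 N) →+ A) : diamond1 N 𝕜 u (f.comp φ) = f.comp (diamond1 N 𝕜 u φ) := rfl

theorem diamond1_eq_int (u : (ZMod N)ˣ) (φ : Additive (Gamma1 N) →+ A) :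
    diamond1 N 𝕜 u φ = diamond1 N ℤ u φ := rfl

theorem heckeHom1_conjHom1_comm (p : ℕ) (g : Gamma0 N) (φ : Additive (Gamma1 N) →+ A) :
    heckeHom1 N 𝕜 p (conjHom1 𝕜 g φ) = conjHom1 𝕜 g (heckeHom1 N 𝕜 p φ) := by
  by_cases h : p.Prime ∧ ¬ p ∣ N
  · haveI := Fact.mk h.1
    haveI : NeZero p := ⟨h.1.ne_zero⟩
    simp only [heckeHom1_eq 𝕜 h.2, HeckeReps.transfer_apply]
    set R := repsT1 h.2
    have hc : ∀ γ : Gamma1 N, MulAut.conj (gamma0GL N g) (gamma1GL N γ) = gamma1GL N (conj1 g γ) :=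
      fun γ => by simp [MulAut.conj_apply]
    have h1 := R.transferHom_map (conj1 g) (MulAut.conj (gamma0GL N g)) hc φ
    have hex : ∀ x, ∃ δ : Gamma1 N, (R.map (conj1 g) (MulAut.conj (gamma0GL N g)) hc).rep x =
        gamma1GL N δ * R.rep (MulAction.toPerm (redMatrix p ((g⁻¹ : Gamma0 N) : SL(2, ℤ))) x) := by
      intro x
      obtain ⟨δ, hδ, hmul⟩ := heckeRep1_mul h.2 g⁻¹ x
      refine ⟨toGamma1 (g * δ) (by simp [hδ]), ?_⟩
      show gamma0GL N g * heckeRep1 h.2 x * (gamma0GL N g)⁻¹ = gamma0GL N (g * δ) * _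
      rw [← map_inv, mul_assoc, hmul, map_mul, mul_assoc]
      rfl
    choose d hd using hex
    have h2 := R.transferHom_congr _ (MulAction.toPerm (redMatrix p ((g⁻¹ : Gamma0 N) : SL(2, ℤ))))
      d hd φ
    rw [h1] at h2
    refine AddMonoidHom.ext fun γ => ?_
    have h3 := congrArg (fun ψ : Additive (Gamma1 N) →+ A =>
      ψ (Additive.ofMul (conj1 g (Additive.toMul γ)))) h2
    simp only [AddMonoidHom.comp_apply] at h3
    refine Eq.trans ?_ h3
    congr 1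
    exact congrArg Additive.ofMul ((conj1 g).symm_apply_apply _).symm
  · simp [heckeHom1_of_not 𝕜 h]

/-- Hecke operators commute with diamond operators. -/
theorem heckeHom1_diamond1_comm (p : ℕ) (u : (ZMod N)ˣ) (φ : Additive (Gamma1 N) →+ A) :
    heckeHom1 N 𝕜 p (diamond1 N 𝕜 u φ) = diamond1 N 𝕜 u (heckeHom1 N 𝕜 p φ) :=
  heckeHom1_conjHom1_comm 𝕜 p (diamondRep u) φ

end ops

section parabolic

variable (𝕜 : Type*) [Semiring 𝕜] (N) (A) [Module 𝕜 A]

/-- Parabolic homomorphisms of `Γ₁(N)`. -/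
abbrev parHom1 : Submodule 𝕜 (Additive (Gamma1 N) →+ A) := parabolicHoms 𝕜 (Gamma1 N) A

variable {N A} [NeZero N]

theorem heckeHom1_isParabolicHom (p : ℕ) {φ : Additive (Gamma1 N) →+ A}
    (hφ : IsParabolicHom (Gamma1 N) φ) : IsParabolicHom (Gamma1 N) (heckeHom1 N 𝕜 p φ) := by
  by_cases h : p.Prime ∧ ¬ p ∣ N
  · haveI := Fact.mk h.1
    haveI : NeZero p := ⟨h.1.ne_zero⟩
    intro γ hγ
    rw [heckeHom1_eq 𝕜 h.2]
    refine HeckeReps.transferHom_eq_zero _ φ γ fun δ g m _ hg => hφ δ ?_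
    refine trace_sq_of_conj (γ := gamma1Incl N γ) (δ := gamma1Incl N δ) g m hγ ?_
    rw [← map_pow]; exact hg
  · intro γ _; simp [heckeHom1_of_not 𝕜 h]

theorem conjHom1_isParabolicHom (g : Gamma0 N) {φ : Additive (Gamma1 N) →+ A}
    (hφ : IsParabolicHom (Gamma1 N) φ) : IsParabolicHom (Gamma1 N) (conjHom1 𝕜 g φ) := by
  intro γ hγ
  refine hφ (conj1 g γ) ?_
  show (((g : SL(2, ℤ)) * (γ : SL(2, ℤ)) * (g : SL(2, ℤ))⁻¹ : SL(2, ℤ)) :
    Matrix (Fin 2) (Fin 2) ℤ).trace ^ 2 = 4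
  rw [Matrix.SpecialLinearGroup.coe_mul, Matrix.trace_mul_comm, ← Matrix.SpecialLinearGroup.coe_mul,
    inv_mul_cancel_left]
  exact hγ

/-- `T_p` on parabolic homomorphisms. -/
def heckePar1 (p : ℕ) : Module.End 𝕜 (parHom1 N A 𝕜) :=
  (heckeHom1 N 𝕜 p).restrict fun _ hφ => heckeHom1_isParabolicHom 𝕜 p hφ

theorem coe_heckePar1 (p : ℕ) (φ : parHom1 N A 𝕜) :
    ((heckePar1 𝕜 p φ : parHom1 N A 𝕜) : Additive (Gamma1 N) →+ A) = heckeHom1 N 𝕜 p φ := rfl

/-- `⟨d⟩` on parabolic homomorphisms. -/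
def diamondPar1 : (ZMod N)ˣ →* Module.End 𝕜 (parHom1 N A 𝕜) where
  toFun u := (diamond1 N 𝕜 u).restrict fun _ hφ => conjHom1_isParabolicHom 𝕜 (diamondRep u) hφ
  map_one' := LinearMap.ext fun φ => Subtype.ext (LinearMap.congr_fun (map_one (diamond1 N 𝕜)) φ.1)
  map_mul' u v := LinearMap.ext fun φ =>
    Subtype.ext (LinearMap.congr_fun (map_mul (diamond1 N 𝕜) u v) φ.1)

theorem coe_diamondPar1 (u : (ZMod N)ˣ) (φ : parHom1 N A 𝕜) :
    ((diamondPar1 𝕜 u φ : parHom1 N A 𝕜) : Additive (Gamma1 N) →+ A) = diamond1 N 𝕜 u φ := rfl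

theorem commute_heckePar1_diamondPar1 (p : ℕ) (u : (ZMod N)ˣ) :
    Commute (heckePar1 𝕜 p : Module.End 𝕜 (parHom1 N A 𝕜)) (diamondPar1 𝕜 u) :=
  LinearMap.ext fun φ => Subtype.ext (heckeHom1_diamond1_comm 𝕜 p u φ.1)

end parabolic

end FLTA.DeligneSerre
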