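import Fermat.Agent.Periods.Hecke

/-!
# Hecke double coset representatives for `Γ₁(N)`

For a prime `p ∤ N` the representatives are `(1 j; 0 p)`, `j` mod `p`, and `σ_p (p 0; 0 1)` with
`σ_p ∈ Γ₀(N)` of lower right entry `p`.  Right multiplication by `Γ₀(N)` permutes them up to
elements of `Γ₀(N)` with the same lower right entry.
-/

set_option autoImplicit false

noncomputable section

open CongruenceSubgroup Matrix.SpecialLinearGroup UpperHalfPlane
open scoped MatrixGroups OnePoint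

namespace FLTA.DeligneSerre

open FLTA.Periods
open P2MW.S_ModularForm_heckeT_slash_eq_self_of_mem_Gamma0.ModularForm.HeckeSlashInvariance
  (heckeRep heckeRep_mul redMatrix)

variable {N : ℕ}

/-- The lower right entry as a homomorphism to units. -/
def lowerRight (N : ℕ) : Gamma0 N →* (ZMod N)ˣ := (Gamma0Map N).toHomUnits

theorem coe_lowerRight (g : Gamma0 N) :
    ((lowerRight N g : (ZMod N)ˣ) : ZMod N) = (((g : SL(2, ℤ)).1 1 1 : ℤ) : ZMod N) := rfl

theorem mem_gamma1_iff {g : SL(2, ℤ)} :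
    g ∈ Gamma1 N ↔ ∃ h : g ∈ Gamma0 N, lowerRight N ⟨g, h⟩ = 1 := by
  constructor
  · intro hg
    exact ⟨Gamma1_in_Gamma0 N hg, Units.ext (by simpa [coe_lowerRight] using ((Gamma1_mem N g).1 hg).2.1)⟩
  · rintro ⟨h, hd⟩
    have hd' : ((g.1 1 1 : ℤ) : ZMod N) = 1 := by
      simpa [coe_lowerRight] using congrArg Units.val hd
    have hc : ((g.1 1 0 : ℤ) : ZMod N) = 0 := Gamma0_mem.mp h
    have hdet : g.1 0 0 * g.1 1 1 - g.1 0 1 * g.1 1 0 = 1 := by
      rw [← Matrix.det_fin_two]; exact g.2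
    refine (Gamma1_mem N g).2 ⟨?_, hd', hc⟩
    have := congrArg (Int.cast : ℤ → ZMod N) hdet
    push_cast at this
    rw [hd', hc] at this
    simpa using this

/-- The inclusion `Γ₁(N) → Γ₀(N)`. -/
def gamma1Incl (N : ℕ) : Gamma1 N →* Gamma0 N :=
  Subgroup.inclusion (Gamma1_in_Gamma0 N)

theorem lowerRight_incl (γ : Gamma1 N) : lowerRight N (gamma1Incl N γ) = 1 :=
  (mem_gamma1_iff.1 γ.2).2

theorem exists_diamondRep [NeZero N] (u : (ZMod N)ˣ) :
    ∃ g : Gamma0 N, lowerRight N g = u := by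
  set d : ℕ := (u : ZMod N).val with hd
  have hcop : Nat.gcd d N = 1 := ZMod.val_coe_unit_coprime u
  have hbez : (1 : ℤ) = (d : ℤ) * Nat.gcdA d N + (N : ℤ) * Nat.gcdB d N := by
    rw [← Nat.gcd_eq_gcd_ab, hcop]; rfl
  let g : SL(2, ℤ) := ⟨!![Nat.gcdA d N, -Nat.gcdB d N; (N : ℤ), (d : ℤ)], by
    rw [Matrix.det_fin_two_of]; linear_combination -hbez⟩
  refine ⟨⟨g, mem_Gamma0_of_dvd (dvd_refl _)⟩, Units.ext ?_⟩
  show (((d : ℕ) : ℤ) : ZMod N) = (u : ZMod N)
  rw [Int.cast_natCast, hd, ZMod.natCast_zmod_val]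

/-- An element of `Γ₀(N)` with prescribed lower right entry. -/
def diamondRep [NeZero N] (u : (ZMod N)ˣ) : Gamma0 N := (exists_diamondRep u).choose

@[simp] theorem lowerRight_diamondRep [NeZero N] (u : (ZMod N)ˣ) :
    lowerRight N (diamondRep u) = u := (exists_diamondRep u).choose_spec

variable {p : ℕ}

/-- A prime not dividing `N` as a unit modulo `N`. -/
def primeUnit (hp : p.Prime) (hpN : ¬ p ∣ N) : (ZMod N)ˣ :=
  ZMod.unitOfCoprime p (hp.coprime_iff_not_dvd.2 hpN)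

@[simp] theorem coe_primeUnit (hp : p.Prime) (hpN : ¬ p ∣ N) :
    ((primeUnit hp hpN : (ZMod N)ˣ) : ZMod N) = p := rfl

variable [hp : Fact p.Prime] [NeZero N] (hpN : ¬ p ∣ N)

/-- The correcting factor of the representative at `x`. -/
def repFactor (x : OnePoint (ZMod p)) : Gamma0 N :=
  Option.elim x (diamondRep (primeUnit hp.out hpN)) fun _ => 1

/-- The representatives. -/
def heckeRep1 (x : OnePoint (ZMod p)) : GL (Fin 2) ℝ :=
  gamma0GL N (repFactor hpN x) * heckeRep p x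

theorem heckeRep1_coe (j : ZMod p) : heckeRep1 hpN (j : OnePoint (ZMod p)) = ModularForm.heckeMatrix p j.val := by
  show gamma0GL N 1 * _ = _
  rw [map_one, one_mul]
  rfl

theorem heckeRep1_infty : heckeRep1 hpN (∞ : OnePoint (ZMod p)) =
    gamma0GL N (diamondRep (primeUnit hp.out hpN)) * ModularForm.heckeDiagMatrix p := by
  rfl

/-- The representatives are integral with bottom row `(0, p)` modulo `N`. -/
theorem exists_int_heckeRep1 (x : OnePoint (ZMod p)) :
    ∃ M : Matrix (Fin 2) (Fin 2) ℤ, (heckeRep1 hpN x).val = M.map (Int.castRingHom ℝ) ∧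
      ((M 1 0 : ℤ) : ZMod N) = 0 ∧ ((M 1 1 : ℤ) : ZMod N) = p := by
  have hp0 : p ≠ 0 := hp.out.ne_zero
  induction x using OnePoint.rec with
  | infty =>
    rw [heckeRep1_infty]
    set g := diamondRep (primeUnit hp.out hpN)
    refine ⟨(g : SL(2, ℤ)).1 * !![(p : ℤ), 0; 0, 1], ?_, ?_, ?_⟩
    · rw [Matrix.map_mul, Units.val_mul, ModularForm.val_heckeDiagMatrix hp0]
      congr 1
      ext i j; fin_cases i <;> fin_cases j <;> simp
    · simp [Matrix.mul_apply, Fin.sum_univ_two, Gamma0_mem.mp g.2]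
    · have := coe_lowerRight g
      rw [lowerRight_diamondRep, coe_primeUnit] at this
      simp [Matrix.mul_apply, Fin.sum_univ_two, ← this]
  | coe j =>
    rw [heckeRep1_coe]
    refine ⟨!![1, (j.val : ℤ); 0, (p : ℤ)], ?_, by simp, by simp⟩
    rw [ModularForm.val_heckeMatrix hp0]
    ext i k; fin_cases i <;> fin_cases k <;> simp

/-- Right multiplication by `Γ₀(N)`. -/
theorem heckeRep1_mul (g : Gamma0 N) (x : OnePoint (ZMod p)) :
    ∃ δ : Gamma0 N, lowerRight N δ = lowerRight N g ∧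
      heckeRep1 hpN x * gamma0GL N g =
        gamma0GL N δ * heckeRep1 hpN (redMatrix p (g : SL(2, ℤ)) • x) := by
  obtain ⟨g', hg', hmul⟩ := heckeRep_mul hpN (g : SL(2, ℤ)) (dvd_of_mem_Gamma0 g.2) x
  set y := redMatrix p (g : SL(2, ℤ)) • x
  set δ : Gamma0 N := repFactor hpN x * ⟨g', mem_Gamma0_of_dvd hg'⟩ * (repFactor hpN y)⁻¹ with hδ
  have heq : heckeRep1 hpN x * gamma0GL N g = gamma0GL N δ * heckeRep1 hpN y := by
    rw [heckeRep1, heckeRep1, mul_assoc]
    erw [hmul]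
    simp only [hδ, map_mul, map_inv, mul_assoc, inv_mul_cancel_left]
    rfl
  refine ⟨δ, Units.ext ?_, heq⟩
  obtain ⟨Mx, hMx, hx0, hx1⟩ := exists_int_heckeRep1 hpN x
  obtain ⟨My, hMy, hy0, hy1⟩ := exists_int_heckeRep1 hpN y
  have hval : ∀ h : Gamma0 N, (gamma0GL N h).val = (h : SL(2, ℤ)).1.map (Int.castRingHom ℝ) :=
    fun h => by ext i j; exact gamma0GL_apply h i j
  have hmat := congrArg Units.val heq
  rw [Units.val_mul, Units.val_mul, hMx, hMy, hval, hval, ← Matrix.map_mul, ← Matrix.map_mul] at hmat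
  have hint : Mx * (g : SL(2, ℤ)).1 = (δ : SL(2, ℤ)).1 * My :=
    Matrix.map_injective Int.cast_injective hmat
  have h11 := congrArg (fun M : Matrix (Fin 2) (Fin 2) ℤ => ((M 1 1 : ℤ) : ZMod N)) hint
  simp only [Matrix.mul_apply, Fin.sum_univ_two, Int.cast_add, Int.cast_mul] at h11
  rw [hx0, hx1, hy1, Gamma0_mem.mp δ.2, zero_mul, zero_mul, zero_add, zero_add,
    mul_comm (p : ZMod N)] at h11
  exact ((primeUnit hp.out hpN).isUnit.mul_right_cancel h11).symm

end FLTA.DeligneSerre
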